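import Fermat.Agent.S15.H975.DescSpec
import Fermat.Agent.S37
import Fermat.Agent.S29.M1
import Fermat.Agent.S29.H571.HeckeGalois

/-!
# Row S15 / DESC, leaf G3 (helper106): Kummer cocycles are unramified at good primes

Blueprint `coord/S15-DESC-blueprint.md` sec. 3; frozen shape `H975.G3Statement`.

* `g3 : H975.G3Statement` (exact frozen type);
* `inertia_smul_eq` : level `N`, any `r`, `k`: for a prime `ℓ ∤ N * r`, a place `A` of `ℚ̄` over
  `ℓ` and `σ` in the inertia group of `A`: if `σ` fixes `r ^ k • y` then `σ` fixes `y`;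
* `kummer_cocycle_unramified`, `inertia_smul_eq_of_torsion` : cocycle and torsion forms;
* `inertia_smul_eq_of_specializationExists` : the abstract core (any `J` with the Prelude
  property `SpecializationExists N r J`).

Inputs: landed S37 (`Fermat.Agent.S37.result`: `inertia_comm` + `injective_torsion`),
`S29.heckeOperatorsCommuteBar`, `S29.H571.smulCommClass_heckeModuleBar`.
-/

set_option autoImplicit false
set_option linter.style.haveILetI false

namespace Fermat.Agent.S15.H106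

open ModularCurve

/-- the absolute Galois group of `ℚ` -/
abbrev GalQ : Type := AlgebraicClosure ℚ ≃ₐ[ℚ] AlgebraicClosure ℚ

section Abstract

variable {J : Type*} [AddCommGroup J] [Module HeckeAlg J] [DistribMulAction GalQ J]

/-- **G3, abstract form.**  If `J` has specializations at the primes not dividing `N * r`
(frozen S37), `σ` is in the inertia group of a place `A` over such a prime `ℓ`, and `σ` fixes
`r ^ k • y`, then `σ` fixes `y`. -/
theorem inertia_smul_eq_of_specializationExists {N r : ℕ}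
    (hS : SpecializationExists (K := ℚ) (L := AlgebraicClosure ℚ) N r J)
    {ℓ : ℕ} (hℓ : ℓ.Prime) (hℓN : ¬ ℓ ∣ N * r)
    (A : ValuationSubring (AlgebraicClosure ℚ)) (hA : A.LiesOverPrime ℓ)
    (σ : GalQ) (hσ : σ ∈ A.inertiaSubgroupIn ℚ) (y : J) (k : ℕ)
    (hy : σ • (r ^ k • y) = r ^ k • y) : σ • y = y := by
  obtain ⟨J', _, _, sp, F, hsp, -⟩ := hS ℓ hℓ hℓN A hA
  have h1 : r ^ k • (σ • y - y) = 0 := by
    rw [smul_sub, smul_comm (r ^ k) σ y, hy, sub_self]
  have h2 : sp (σ • y - y) = 0 := by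
    rw [map_sub, hsp.inertia_comm σ hσ y, sub_self]
  exact sub_eq_zero.1 (hsp.injective_torsion _ ⟨k, h1⟩ h2)

end Abstract

/-- the frozen S37 at level `N`, auxiliary prime `r`, with the two Hecke hypotheses discharged -/
theorem specializationExists_JZero (N r : ℕ) [NeZero N] :
    letI := ModularCurve.heckeModuleBar N
    SpecializationExists (K := ℚ) (L := AlgebraicClosure ℚ) N r (JZero N) := by
  letI := ModularCurve.heckeModuleBar N
  exact Fermat.Agent.S37.result N r (Fermat.Agent.S29.heckeOperatorsCommuteBar N)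
    (Fermat.Agent.S29.H571.smulCommClass_heckeModuleBar N)

/-- **G3.**  Inertia at a prime `ℓ ∤ N * r` fixes every `y : JZero N` such that it fixes
`r ^ k • y`. -/
theorem inertia_smul_eq (N r : ℕ) [NeZero N] {ℓ : ℕ} (hℓ : ℓ.Prime) (hℓN : ¬ ℓ ∣ N * r)
    (A : ValuationSubring (AlgebraicClosure ℚ)) (hA : A.LiesOverPrime ℓ)
    (σ : GalQ) (hσ : σ ∈ A.inertiaSubgroupIn ℚ) (y : JZero N) (k : ℕ)
    (hy : σ • (r ^ k • y) = r ^ k • y) : σ • y = y := by
  letI := ModularCurve.heckeModuleBar N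
  exact inertia_smul_eq_of_specializationExists (specializationExists_JZero N r) hℓ hℓN A hA σ hσ
    y k hy

/-- **G3, cocycle form.**  If `r ^ k • y` is rational, the Kummer cocycle `σ ↦ σ y - y` is
trivial on the inertia groups at all primes `ℓ ∤ N * r`. -/
theorem kummer_cocycle_unramified (N r : ℕ) [NeZero N] {ℓ : ℕ} (hℓ : ℓ.Prime)
    (hℓN : ¬ ℓ ∣ N * r) (A : ValuationSubring (AlgebraicClosure ℚ)) (hA : A.LiesOverPrime ℓ)
    (σ : GalQ) (hσ : σ ∈ A.inertiaSubgroupIn ℚ) (y : JZero N) (k : ℕ)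
    (hy : ∀ τ : GalQ, τ • (r ^ k • y) = r ^ k • y) : σ • y - y = 0 :=
  sub_eq_zero.2 (inertia_smul_eq N r hℓ hℓN A hA σ hσ y k (hy σ))

/-- **G3 on torsion**: inertia at `ℓ ∤ N * r` acts trivially on `J[r ^ k]`. -/
theorem inertia_smul_eq_of_torsion (N r : ℕ) [NeZero N] {ℓ : ℕ} (hℓ : ℓ.Prime)
    (hℓN : ¬ ℓ ∣ N * r) (A : ValuationSubring (AlgebraicClosure ℚ)) (hA : A.LiesOverPrime ℓ)
    (σ : GalQ) (hσ : σ ∈ A.inertiaSubgroupIn ℚ) (y : JZero N) (k : ℕ)
    (hy : r ^ k • y = 0) : σ • y = y :=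
  inertia_smul_eq N r hℓ hℓN A hA σ hσ y k (by rw [hy]; exact smul_zero (A := JZero N) σ)

/-- **Leaf G3** (exact frozen type of `H975/DescSpec.lean`). -/
theorem g3 : Fermat.Agent.S15.H975.G3Statement := by
  intro p _ hp r hr ℓ hℓ hℓp hℓr A hA τ hτ y hy
  have hℓN : ¬ ℓ ∣ p * r := by
    intro h
    rcases (Nat.Prime.dvd_mul hℓ).1 h with h1 | h1
    · exact hℓp ((Nat.prime_dvd_prime_iff_eq hℓ hp).1 h1)
    · exact hℓr ((Nat.prime_dvd_prime_iff_eq hℓ hr).1 h1)
  exact inertia_smul_eq p r hℓ hℓN A hA τ hτ y 1 (by rw [pow_one]; exact hy)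

end Fermat.Agent.S15.H106
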