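import Fermat.Agent.S15.H975.DescSpec
import Fermat.Agent.S19.H435.Sub

/-!
# S15 / DESC, PEU-glue: `Peu1JStatement` and `PeuOmegaJStatement` from T1 + T2 (helper106)

Blueprint `coord/S15-DESC-blueprint.md` sec. 4.  For an Eisenstein piece `F' ≤ F ≤ J₀(p)[r]` and
`y ∈ Y(F)` (so `x = r y` is rational and the cocycle of `y` takes values in `F`), leaf **T1**
gives a Hopf model on the extension `M = E_x` of `ℤ/r` (generated by `y'`) by `J₀(p)[r]`.
The sub-object `N = ℤ y' + ι F` and its quotient `Q = N / ι F'` are Galois-stable, so `Q` carries a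
Hopf model (`S19.H435.hopfModel_of_subquotient`, ORD block as a hypothesis); `Q` is generated by
`e` (a generator of `F / F'`) and `y`, and leaf **T2** applies to it verbatim.

* `exists_subquotient_h106` : the abstract sub-quotient (action, continuity, Hopf model);
* `exists_nsmul_sub_mem_h106` : `F / F'` of prime order is generated by any `e ∉ F'`;
* `exists_piece_model_h106` : the model `Q` of the piece with its dictionary;
* `peu1J_of` : `OrdStatement → T1Statement → T2OneStatement → Peu1JStatement`;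
* `peuOmegaJ_of` : `OrdStatement → T1Statement → T2OmegaStatement → PeuOmegaJStatement`.

The unconditional forms are in `Fermat/Agent/S15/H106/PeuJ.lean`.
-/

set_option autoImplicit false
set_option linter.style.haveILetI false
set_option linter.unusedVariables false

noncomputable section

namespace Fermat.Agent.S15.H106

open Fermat.Agent.S15.H975 ModularCurve

/-! ## The abstract sub-quotient -/

/-- An additive action fixes zero. -/
theorem act_zero_glue_h106 {M : Type} [AddCommGroup M] {act : Gal → M → M}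
    (hc : Fermat.Agent.S19.IsContAddAction act) (σ : Gal) : act σ 0 = 0 := by
  have h := hc.act_add σ 0 0
  rw [add_zero] at h
  exact left_eq_add.mp h

/-- The additive map of an additive action. -/
def actHom_h106 {M : Type} [AddCommGroup M] {act : Gal → M → M}
    (hc : Fermat.Agent.S19.IsContAddAction act) (σ : Gal) : M →+ M :=
  AddMonoidHom.mk' (act σ) (hc.act_add σ)

theorem actHom_h106_apply {M : Type} [AddCommGroup M] {act : Gal → M → M}
    (hc : Fermat.Agent.S19.IsContAddAction act) (σ : Gal) (m : M) :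
    actHom_h106 hc σ m = act σ m := rfl

theorem act_sub_glue_h106 {M : Type} [AddCommGroup M] {act : Gal → M → M}
    (hc : Fermat.Agent.S19.IsContAddAction act) (σ : Gal) (a b : M) :
    act σ (a - b) = act σ a - act σ b :=
  map_sub (actHom_h106 hc σ) a b

theorem act_zsmul_glue_h106 {M : Type} [AddCommGroup M] {act : Gal → M → M}
    (hc : Fermat.Agent.S19.IsContAddAction act) (σ : Gal) (k : ℤ) (a : M) :
    act σ (k • a) = k • act σ a :=
  map_zsmul (actHom_h106 hc σ) k a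

theorem act_nsmul_glue_h106 {M : Type} [AddCommGroup M] {act : Gal → M → M}
    (hc : Fermat.Agent.S19.IsContAddAction act) (σ : Gal) (k : ℕ) (a : M) :
    act σ (k • a) = k • act σ a :=
  map_nsmul (actHom_h106 hc σ) k a

/-- **Sub-quotients.**  For stable subgroups `N' ≤ N` of a module with a Hopf model, the quotient
`N / N'` with the induced action is a continuous additive action with a Hopf model. -/
theorem exists_subquotient_h106 (hord : Fermat.Agent.S19.OrdStatement) {r : ℕ} [Fact r.Prime]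
    {M : Type} [AddCommGroup M] [Finite M] {act : Gal → M → M}
    (hc : Fermat.Agent.S19.IsContAddAction act) (hH : Fermat.Agent.S19.HopfModel r M act)
    (N N' : AddSubgroup M)
    (hN : ∀ σ, ∀ n ∈ N, act σ n ∈ N) (hN' : ∀ σ, ∀ n ∈ N', act σ n ∈ N') :
    ∃ (Q : Type) (_ : AddCommGroup Q) (_ : Finite Q) (actQ : Gal → Q → Q) (π : ↥N →+ Q),
      Fermat.Agent.S19.IsContAddAction actQ ∧ Fermat.Agent.S19.HopfModel r Q actQ ∧
      Function.Surjective π ∧ (∀ n : ↥N, π n = 0 ↔ (n : M) ∈ N') ∧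
      (∀ (σ : Gal) (n : ↥N), actQ σ (π n) = π ⟨act σ n, hN σ n n.2⟩) := by
  classical
  let actN : Gal → ↥N → ↥N := fun σ n => ⟨act σ n, hN σ n n.2⟩
  let actNHom : Gal → (↥N →+ ↥N) := fun σ =>
    AddMonoidHom.mk' (actN σ) (fun a b => Subtype.ext (hc.act_add σ a b))
  let K : AddSubgroup ↥N := N'.addSubgroupOf N
  have hK : ∀ σ, K ≤ K.comap (actNHom σ) := by
    intro σ n hn
    have h1 : (n : M) ∈ N' := AddSubgroup.mem_addSubgroupOf.mp hn
    exact AddSubgroup.mem_addSubgroupOf.mpr (hN' σ n h1)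
  let actQ : Gal → (↥N ⧸ K) → (↥N ⧸ K) := fun σ =>
    QuotientAddGroup.map K K (actNHom σ) (hK σ)
  have hactQ : ∀ (σ : Gal) (n : ↥N), actQ σ (QuotientAddGroup.mk n) =
      QuotientAddGroup.mk (actN σ n) := fun σ n => rfl
  refine ⟨↥N ⧸ K, inferInstance, inferInstance, actQ, QuotientAddGroup.mk' K, ?_, ?_,
    QuotientAddGroup.mk'_surjective K, ?_, fun σ n => rfl⟩
  · refine ⟨?_, ?_, ?_, ?_⟩
    · intro m
      obtain ⟨n, rfl⟩ := QuotientAddGroup.mk_surjective m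
      rw [hactQ]
      exact congrArg _ (Subtype.ext (hc.act_one n))
    · intro σ τ m
      obtain ⟨n, rfl⟩ := QuotientAddGroup.mk_surjective m
      rw [hactQ, hactQ, hactQ]
      exact congrArg _ (Subtype.ext (hc.act_mul σ τ n))
    · intro σ m m'
      exact map_add (QuotientAddGroup.map K K (actNHom σ) (hK σ)) m m'
    · intro m
      obtain ⟨n, rfl⟩ := QuotientAddGroup.mk_surjective m
      obtain ⟨L, hL, hLσ⟩ := hc.cont (n : M)
      refine ⟨L, hL, fun σ hσ => ?_⟩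
      rw [hactQ]
      exact congrArg _ (Subtype.ext (hLσ σ hσ))
  · exact Fermat.Agent.S19.H435.hopfModel_of_subquotient hord hH N.subtype
      Subtype.val_injective actN (fun σ n => rfl) (QuotientAddGroup.mk' K)
      (QuotientAddGroup.mk'_surjective K) actQ (fun σ n => rfl)
  · intro n
    exact (QuotientAddGroup.eq_zero_iff n).trans AddSubgroup.mem_addSubgroupOf

/-! ## Pieces of prime index -/

/-- If `F'` has prime index `r` in `F` and `e ∈ F ∖ F'`, then `F = F' + ℕ e`. -/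
theorem exists_nsmul_sub_mem_h106 {J : Type} [AddCommGroup J] (r : ℕ) [Fact r.Prime]
    (F' F : AddSubgroup J) (hidx : F'.relIndex F = r) (e : J) (he : e ∈ F) (he' : e ∉ F')
    (f : J) (hf : f ∈ F) : ∃ m : ℕ, f - m • e ∈ F' := by
  have hcard : Nat.card (↥F ⧸ F'.addSubgroupOf F) = r := hidx
  have hne : (QuotientAddGroup.mk (⟨e, he⟩ : ↥F) : ↥F ⧸ F'.addSubgroupOf F) ≠ 0 := by
    intro h
    exact he' (AddSubgroup.mem_addSubgroupOf.mp ((QuotientAddGroup.eq_zero_iff _).mp h))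
  have hmem := mem_multiples_of_prime_card hcard hne
    (g' := (QuotientAddGroup.mk (⟨f, hf⟩ : ↥F) : ↥F ⧸ F'.addSubgroupOf F))
  obtain ⟨m, hm⟩ := hmem
  have hm : m • (QuotientAddGroup.mk (⟨e, he⟩ : ↥F) : ↥F ⧸ F'.addSubgroupOf F) =
      QuotientAddGroup.mk (⟨f, hf⟩ : ↥F) := hm
  refine ⟨m, ?_⟩
  have h2 : (QuotientAddGroup.mk ((⟨f, hf⟩ : ↥F) - m • (⟨e, he⟩ : ↥F)) :
      ↥F ⧸ F'.addSubgroupOf F) = 0 := by
    rw [QuotientAddGroup.mk_sub, QuotientAddGroup.mk_nsmul, hm, sub_self]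
  have h3 := AddSubgroup.mem_addSubgroupOf.mp ((QuotientAddGroup.eq_zero_iff _).mp h2)
  simpa using h3

/-- Integer multiples of an element killed by `r` are natural multiples. -/
theorem exists_nsmul_eq_zsmul_h106 {J : Type} [AddCommGroup J] (r : ℕ) (hr : 0 < r) (a : J)
    (ha : r • a = 0) (k : ℤ) : ∃ j : ℕ, j • a = k • a := by
  refine ⟨(k % (r : ℤ)).toNat, ?_⟩
  have hr' : (r : ℤ) ≠ 0 := by exact_mod_cast hr.ne'
  have h1 : ((k % (r : ℤ)).toNat : ℤ) = k % (r : ℤ) :=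
    Int.toNat_of_nonneg (Int.emod_nonneg k hr')
  have h2 : k • a = (k % (r : ℤ)) • a := by
    conv_lhs => rw [← Int.emod_add_mul_ediv k (r : ℤ)]
    rw [add_smul, mul_smul, natCast_zsmul, smul_comm, ha, smul_zero, add_zero]
  calc (k % (r : ℤ)).toNat • a = ((k % (r : ℤ)).toNat : ℤ) • a := (natCast_zsmul _ _).symm
    _ = (k % (r : ℤ)) • a := by rw [h1]
    _ = k • a := h2.symm

/-! ## The model of a piece -/

section Abs

variable {r : ℕ} {J : Type} [AddCommGroup J] (g : Gal → J → J) (T F' F : AddSubgroup J)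
  {M : Type} [AddCommGroup M] (act : Gal → M → M) (ι : ↥T →+ M) (y' : M)

/-- `ι` of a difference `a - k b` computed in `J`. -/
theorem iota_sub_nsmul_h106 (a b : ↥T) (k : ℕ) (h : (a : J) - k • (b : J) ∈ T) :
    ι ⟨(a : J) - k • (b : J), h⟩ = ι a - k • ι b := by
  have h1 : (⟨(a : J) - k • (b : J), h⟩ : ↥T) = a - k • b := Subtype.ext rfl
  rw [h1]
  exact (map_sub ι a (k • b)).trans (congrArg (fun t => ι a - t) (map_nsmul ι k b))

/-- **The two subgroups** `N' = ι F' ≤ N = ℤ y' + ι F` of `M`, with their membership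
characterisations and their stability. -/
theorem exists_subgroups_h106 (hle : F' ≤ F) (hFt : F ≤ T)
    (hF' : ∀ σ, ∀ f ∈ F', g σ f ∈ F') (hF : ∀ σ, ∀ f ∈ F, g σ f ∈ F)
    (y : J) (hy : ∀ σ, g σ y - y ∈ F)
    (hc : Fermat.Agent.S19.IsContAddAction act) (hιinj : Function.Injective ι)
    (hιact : ∀ (σ : Gal) (w w' : ↥T), (w' : J) = g σ (w : J) → act σ (ι w) = ι w')
    (hyact : ∀ (σ : Gal) (w : ↥T), (w : J) = g σ y - y → act σ y' = y' + ι w) :
    ∃ N N' : AddSubgroup M,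
      (∀ w : ↥T, ι w ∈ N' ↔ (w : J) ∈ F') ∧
      (∀ n ∈ N', ∃ w : ↥T, (w : J) ∈ F' ∧ ι w = n) ∧
      (∀ w : ↥T, (w : J) ∈ F → ι w ∈ N) ∧ y' ∈ N ∧
      (∀ n ∈ N, ∃ (k : ℤ) (w : ↥T), (w : J) ∈ F ∧ n = k • y' + ι w) ∧
      (∀ σ, ∀ n ∈ N, act σ n ∈ N) ∧ (∀ σ, ∀ n ∈ N', act σ n ∈ N') := by
  have hmemN' : ∀ w : ↥T, ι w ∈ (F'.addSubgroupOf T).map ι ↔ (w : J) ∈ F' := by
    intro w
    constructor
    · rintro ⟨w', hw', hww'⟩
      rw [← hιinj hww']
      exact AddSubgroup.mem_addSubgroupOf.mp hw'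
    · intro hw
      exact ⟨w, AddSubgroup.mem_addSubgroupOf.mpr hw, rfl⟩
  have hN'range : ∀ n ∈ (F'.addSubgroupOf T).map ι, ∃ w : ↥T, (w : J) ∈ F' ∧ ι w = n := by
    rintro n ⟨w, hw, rfl⟩
    exact ⟨w, AddSubgroup.mem_addSubgroupOf.mp hw, rfl⟩
  have hιN : ∀ w : ↥T, (w : J) ∈ F →
      ι w ∈ AddSubgroup.zmultiples y' ⊔ (F.addSubgroupOf T).map ι := fun w hw =>
    AddSubgroup.mem_sup_right ⟨w, AddSubgroup.mem_addSubgroupOf.mpr hw, rfl⟩
  have hy'N : y' ∈ AddSubgroup.zmultiples y' ⊔ (F.addSubgroupOf T).map ι :=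
    AddSubgroup.mem_sup_left (AddSubgroup.mem_zmultiples y')
  have hdec : ∀ n ∈ AddSubgroup.zmultiples y' ⊔ (F.addSubgroupOf T).map ι,
      ∃ (k : ℤ) (w : ↥T), (w : J) ∈ F ∧ n = k • y' + ι w := by
    intro n hn
    obtain ⟨a, ha, b, hb, rfl⟩ := AddSubgroup.mem_sup.mp hn
    obtain ⟨k, rfl⟩ := AddSubgroup.mem_zmultiples_iff.mp ha
    obtain ⟨w, hw, rfl⟩ := hb
    exact ⟨k, w, AddSubgroup.mem_addSubgroupOf.mp hw, rfl⟩
  refine ⟨AddSubgroup.zmultiples y' ⊔ (F.addSubgroupOf T).map ι, (F'.addSubgroupOf T).map ι,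
    hmemN', hN'range, hιN, hy'N, hdec, ?_, ?_⟩
  · intro σ n hn
    obtain ⟨k, w, hwF, rfl⟩ := hdec n hn
    have h1 : g σ (w : J) ∈ F := hF σ _ hwF
    have h2 : act σ (ι w) = ι ⟨g σ (w : J), hFt h1⟩ := hιact σ w ⟨_, hFt h1⟩ rfl
    have h3 : act σ y' = y' + ι ⟨g σ y - y, hFt (hy σ)⟩ := hyact σ ⟨_, hFt (hy σ)⟩ rfl
    rw [hc.act_add, act_zsmul_glue_h106 hc, h2, h3]
    exact AddSubgroup.add_mem _
      (AddSubgroup.zsmul_mem _ (AddSubgroup.add_mem _ hy'N (hιN _ (hy σ))) k) (hιN _ h1)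
  · intro σ n hn
    obtain ⟨w, hw, rfl⟩ := hN'range n hn
    have h1 : g σ (w : J) ∈ F' := hF' σ _ hw
    have h2 : act σ (ι w) = ι ⟨g σ (w : J), hFt (hle h1)⟩ := hιact σ w ⟨_, hFt (hle h1)⟩ rfl
    rw [h2]
    exact (hmemN' _).mpr h1

/-- **The model of a piece, abstract form.** -/
theorem exists_piece_model_abs_h106 (hord : Fermat.Agent.S19.OrdStatement) (hr : r.Prime)
    [Finite M] (hle : F' ≤ F) (hFt : F ≤ T) (hTr : ∀ t ∈ T, r • t = 0)
    (hF' : ∀ σ, ∀ f ∈ F', g σ f ∈ F') (hF : ∀ σ, ∀ f ∈ F, g σ f ∈ F)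
    (hidx : F'.relIndex F = r) (e : J) (he : e ∈ F) (he' : e ∉ F')
    (y : J) (hy : ∀ σ, g σ y - y ∈ F)
    (hc : Fermat.Agent.S19.IsContAddAction act) (hH : Fermat.Agent.S19.HopfModel r M act)
    (hιinj : Function.Injective ι) (hry' : r • y' = 0)
    (hind : ∀ j : ℕ, j • y' ∈ ι.range → r ∣ j)
    (hιact : ∀ (σ : Gal) (w w' : ↥T), (w' : J) = g σ (w : J) → act σ (ι w) = ι w')
    (hyact : ∀ (σ : Gal) (w : ↥T), (w : J) = g σ y - y → act σ y' = y' + ι w) :
    ∃ (Q : Type) (_ : AddCommGroup Q) (_ : Finite Q) (actQ : Gal → Q → Q) (eQ yQ : Q),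
      Fermat.Agent.S19.IsContAddAction actQ ∧ Fermat.Agent.S19.HopfModel r Q actQ ∧
      r • eQ = 0 ∧ r • yQ = 0 ∧ eQ ≠ 0 ∧
      (∀ j : ℕ, j • yQ ∈ AddSubgroup.zmultiples eQ → r ∣ j) ∧
      (∀ q : Q, ∃ i j : ℕ, q = i • eQ + j • yQ) ∧
      (∀ (σ : Gal) (k : ℕ), g σ e - k • e ∈ F' → actQ σ eQ = k • eQ) ∧
      (∀ (σ : Gal) (m : ℕ), g σ y - y - m • e ∈ F' → actQ σ yQ = yQ + m • eQ) ∧
      (∀ σ : Gal, actQ σ yQ = yQ → g σ y - y ∈ F') := by
  classical
  haveI : Fact r.Prime := ⟨hr⟩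
  obtain ⟨N, N', hmemN', hN'range, hιN, hy'N, hdec, hNst, hN'st⟩ :=
    exists_subgroups_h106 g T F' F act ι y' hle hFt hF' hF y hy hc hιinj hιact hyact
  obtain ⟨Q, iQ, fQ, actQ, π, hcQ, hHQ, hπsurj, hπ0, hπact⟩ :=
    exists_subquotient_h106 hord hc hH N N' hNst hN'st
  have heT : e ∈ T := hFt he
  obtain ⟨eT, heTdef⟩ : ∃ eT : ↥T, (eT : J) = e := ⟨⟨e, heT⟩, rfl⟩
  obtain ⟨eN, heN⟩ : ∃ eN : ↥N, (eN : M) = ι eT := ⟨⟨ι eT, hιN eT (heTdef ▸ he)⟩, rfl⟩
  obtain ⟨yN, hyN⟩ : ∃ yN : ↥N, (yN : M) = y' := ⟨⟨y', hy'N⟩, rfl⟩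
  have hreT : r • eT = 0 := Subtype.ext (hTr _ eT.2)
  have hacty : ∀ σ : Gal, act σ y' = y' + ι ⟨g σ y - y, hFt (hy σ)⟩ :=
    fun σ => hyact σ ⟨_, hFt (hy σ)⟩ rfl
  -- equality in `Q` from a difference in `ι F'`
  have hπeq : ∀ (n₁ n₂ : ↥N) (w : ↥T), (w : J) ∈ F' → (n₁ : M) = (n₂ : M) + ι w →
      π n₁ = π n₂ := by
    intro n₁ n₂ w hw h
    have h2 : ((n₁ - n₂ : ↥N) : M) = ι w := by
      rw [AddSubgroup.coe_sub, h, add_sub_cancel_left]
    have h1 : π (n₁ - n₂) = 0 := (hπ0 _).mpr (h2 ▸ (hmemN' w).mpr hw)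
    rw [map_sub] at h1
    exact sub_eq_zero.mp h1
  have hπne : ∀ (n₁ n₂ : ↥N), π n₁ = π n₂ →
      ∃ w : ↥T, (w : J) ∈ F' ∧ (n₁ : M) = (n₂ : M) + ι w := by
    intro n₁ n₂ h
    have h1 : π (n₁ - n₂) = 0 := by rw [map_sub, h, sub_self]
    have h2 := (hπ0 _).mp h1
    obtain ⟨w, hw, hww⟩ := hN'range _ h2
    refine ⟨w, hw, ?_⟩
    rw [hww, AddSubgroup.coe_sub, add_sub_cancel]
  refine ⟨Q, iQ, fQ, actQ, π eN, π yN, hcQ, hHQ, ?_, ?_, ?_, ?_, ?_, ?_, ?_, ?_⟩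
  · -- `r • eQ = 0`
    have h1 : r • eN = 0 := by
      apply Subtype.ext
      rw [AddSubgroup.coe_nsmul, heN, ← map_nsmul, hreT, map_zero]
      rfl
    rw [← map_nsmul, h1, map_zero]
  · -- `r • yQ = 0`
    have h1 : r • yN = 0 := by
      apply Subtype.ext
      rw [AddSubgroup.coe_nsmul, hyN, hry']
      rfl
    rw [← map_nsmul, h1, map_zero]
  · -- `eQ ≠ 0`
    intro h
    have h1 := (hπ0 _).mp h
    rw [heN] at h1
    exact he' (heTdef ▸ (hmemN' eT).mp h1)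
  · -- independence
    intro j hj
    obtain ⟨k, hk⟩ := AddSubgroup.mem_zmultiples_iff.mp hj
    have h1 : π (j • yN) = π (k • eN) := by rw [map_nsmul, map_zsmul, hk]
    obtain ⟨w, -, hw⟩ := hπne _ _ h1
    rw [AddSubgroup.coe_nsmul, AddSubgroup.coe_zsmul, hyN, heN] at hw
    apply hind j
    refine ⟨k • eT + w, ?_⟩
    rw [hw, map_add, map_zsmul]
  · -- generation
    intro q
    obtain ⟨n, rfl⟩ := hπsurj q
    obtain ⟨k, w, hwF, hn⟩ := hdec _ n.2
    obtain ⟨j, hj⟩ := exists_nsmul_eq_zsmul_h106 r hr.pos y' hry' k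
    obtain ⟨m, hm⟩ := exists_nsmul_sub_mem_h106 r F' F hidx e he he' (w : J) hwF
    rw [← heTdef] at hm
    refine ⟨m, j, ?_⟩
    rw [← map_nsmul, ← map_nsmul, ← map_add]
    refine hπeq n (m • eN + j • yN) ⟨(w : J) - m • (eT : J), hFt (hle hm)⟩ hm ?_
    rw [iota_sub_nsmul_h106 T ι w eT m, AddSubgroup.coe_add, AddSubgroup.coe_nsmul,
      AddSubgroup.coe_nsmul, heN, hyN, hn, hj]
    abel
  · -- the action on `eQ`
    intro σ k hk
    rw [← heTdef] at hk
    have hσe : g σ (eT : J) ∈ T := hFt (hF σ _ (heTdef ▸ he))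
    have h1 : act σ (ι eT) = ι ⟨g σ (eT : J), hσe⟩ := hιact σ eT ⟨_, hσe⟩ rfl
    have h2 : ι ⟨g σ (eT : J) - k • (eT : J), hFt (hle hk)⟩ = ι ⟨g σ (eT : J), hσe⟩ - k • ι eT :=
      iota_sub_nsmul_h106 T ι ⟨g σ (eT : J), hσe⟩ eT k (hFt (hle hk))
    calc actQ σ (π eN) = π ⟨act σ eN, hNst σ eN eN.2⟩ := hπact σ eN
      _ = π (k • eN) := by
          refine hπeq _ _ ⟨g σ (eT : J) - k • (eT : J), hFt (hle hk)⟩ hk ?_
          show act σ (eN : M) = ((k • eN : ↥N) : M) + _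
          rw [h2, AddSubgroup.coe_nsmul, heN, h1]
          abel
      _ = k • π eN := map_nsmul π k eN
  · -- the action on `yQ`
    intro σ m hm
    rw [← heTdef] at hm
    have h2 : ι ⟨g σ y - y - m • (eT : J), hFt (hle hm)⟩ =
        ι ⟨g σ y - y, hFt (hy σ)⟩ - m • ι eT :=
      iota_sub_nsmul_h106 T ι ⟨g σ y - y, hFt (hy σ)⟩ eT m (hFt (hle hm))
    calc actQ σ (π yN) = π ⟨act σ yN, hNst σ yN yN.2⟩ := hπact σ yN
      _ = π (yN + m • eN) := by
          refine hπeq _ _ ⟨g σ y - y - m • (eT : J), hFt (hle hm)⟩ hm ?_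
          show act σ (yN : M) = ((yN + m • eN : ↥N) : M) + _
          rw [h2, AddSubgroup.coe_add, AddSubgroup.coe_nsmul, heN, hyN, hacty σ]
          abel
      _ = π yN + m • π eN := by rw [map_add, map_nsmul]
  · -- the converse for `yQ`
    intro σ h
    rw [hπact] at h
    obtain ⟨w, hw, hww⟩ := hπne _ _ h
    have h1 : act σ y' = y' + ι w := by
      have h0 : act σ (yN : M) = (yN : M) + ι w := hww
      rwa [hyN] at h0
    rw [hacty σ] at h1
    have h2 : (⟨g σ y - y, hFt (hy σ)⟩ : ↥T) = w := hιinj (add_left_cancel h1)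
    have h3 : g σ y - y = (w : J) := congrArg Subtype.val h2
    rw [h3]
    exact hw

end Abs

/-- **The model of the piece `F / F'` attached to `y ∈ Y(F)`**: a finite Galois module `Q` with a
Hopf model over `ℤ_(r)`, generated by `eQ` (the class of `e`) and `yQ` (the class of the point
`y'` of `E_x`, `x = r y`), with the dictionary between the action on `Q` and the cocycle of
`y`. -/
theorem exists_piece_model_h106 (hord : Fermat.Agent.S19.OrdStatement) (hT1 : T1Statement)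
    (p : ℕ) [NeZero p] (hp : p.Prime) (r : ℕ) (hr : r.Prime) (hrp : r ≠ p)
    (F' F : AddSubgroup (JZero p)) (hle : F' ≤ F) (hFt : F ≤ tors p r)
    (hF' : IsStable p F') (hF : IsStable p F) (hidx : F'.relIndex F = r)
    (e : JZero p) (he : e ∈ F) (he' : e ∉ F') (y : JZero p) (hy : y ∈ sel p r F) :
    ∃ (Q : Type) (_ : AddCommGroup Q) (_ : Finite Q) (actQ : Gal → Q → Q) (eQ yQ : Q),
      Fermat.Agent.S19.IsContAddAction actQ ∧ Fermat.Agent.S19.HopfModel r Q actQ ∧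
      r • eQ = 0 ∧ r • yQ = 0 ∧ eQ ≠ 0 ∧
      (∀ j : ℕ, j • yQ ∈ AddSubgroup.zmultiples eQ → r ∣ j) ∧
      (∀ q : Q, ∃ i j : ℕ, q = i • eQ + j • yQ) ∧
      (∀ (σ : Gal) (k : ℕ), σ • e - k • e ∈ F' → actQ σ eQ = k • eQ) ∧
      (∀ (σ : Gal) (m : ℕ), σ • y - y - m • e ∈ F' → actQ σ yQ = yQ + m • eQ) ∧
      (∀ σ : Gal, actQ σ yQ = yQ → σ • y - y ∈ F') := by
  obtain ⟨M, iM, fM, act, ι, y', hc, hH, hιinj, hry', hind, -, hιact, hyact⟩ :=
    hT1 p hp r hr hrp y hy.1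
  exact exists_piece_model_abs_h106 (fun (σ : Gal) (x : JZero p) => σ • x) (tors p r) F' F act ι
    y' hord hr hle hFt (fun t ht => ht) hF' hF hidx e he he' y hy.2 hc hH hιinj hry' hind
    hιact hyact

/-! ## The two glue leaves -/

/-- **PEU-1 on `J`** from T1 and T2-1. -/
theorem peu1J_of (hord : Fermat.Agent.S19.OrdStatement) (hT1 : T1Statement)
    (hT2 : T2OneStatement) : Peu1JStatement := by
  intro p _ hp r hr hrp hr2 A hA τ hτ F' F hle hFt hF' hF hidx htriv y hy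
  haveI : Fact r.Prime := ⟨hr⟩
  -- an element of `F ∖ F'`
  obtain ⟨e, he, he'⟩ : ∃ e ∈ F, e ∉ F' := by
    by_contra hcon
    push Not at hcon
    have h1 : F'.relIndex F = 1 := AddSubgroup.relIndex_eq_one.mpr hcon
    rw [hidx] at h1
    exact hr.one_lt.ne' h1
  obtain ⟨Q, iQ, fQ, actQ, eQ, yQ, hcQ, hHQ, hreQ, hryQ, -, -, hgenQ, hdicte, hdicty, hconv⟩ :=
    exists_piece_model_h106 hord hT1 p hp r hr hrp F' F hle hFt hF' hF hidx e he he' y hy
  apply hconv τ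
  refine hT2 r hr hr2 Q iQ fQ actQ hcQ hHQ eQ yQ hreQ hryQ hgenQ ?_ ?_ A hA τ hτ
  · intro σ
    have h1 := hdicte σ 1 (by rw [one_smul]; exact htriv σ e he)
    rwa [one_smul] at h1
  · intro σ
    obtain ⟨m, hm⟩ := exists_nsmul_sub_mem_h106 r F' F hidx e he he' (σ • y - y) (hy.2 σ)
    exact ⟨m, hdicty σ m hm⟩

/-- **PEU-ω on `J`** from T1 and T2-ω. -/
theorem peuOmegaJ_of (hord : Fermat.Agent.S19.OrdStatement) (hT1 : T1Statement)
    (hT2 : T2OmegaStatement) : PeuOmegaJStatement := by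
  intro p _ hp r hr hrp F' F hle hFt hF' hF hidx ζ hζ hω e he he' y hy a α ha hα hκ
  obtain ⟨Q, iQ, fQ, actQ, eQ, yQ, hcQ, hHQ, hreQ, hryQ, heQ0, hindQ, hgenQ, hdicte, hdicty, -⟩ :=
    exists_piece_model_h106 hord hT1 p hp r hr hrp F' F hle hFt hF' hF hidx e he he' y hy
  exact hT2 r hr Q iQ fQ actQ hcQ hHQ eQ yQ hreQ hryQ heQ0 hindQ hgenQ ζ hζ
    (fun σ k hk => hdicte σ k (hω σ k hk e he)) a α ha hα
    (fun σ m hm => hdicty σ m (hκ σ m hm))

end Fermat.Agent.S15.H106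

end
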