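import Fermat.Agent.S15.H106.PeuGlue
import Fermat.Agent.S15.H946.T1
import Fermat.Agent.S15.H379.T2
import Fermat.Agent.S19.H15.Ord

/-!
# S15 / DESC, leaves PEU1J and PEUwJ, UNCONDITIONAL (helper106)

`peu1J : H975.Peu1JStatement` and `peuOmegaJ : H975.PeuOmegaJStatement`, in the exact shapes of
`Fermat/Agent/S15/H975/DescSpec.lean`, from

* the glue `peu1J_of`, `peuOmegaJ_of` of `Fermat/Agent/S15/H106/PeuGlue.lean`,
* leaf T1 (`Fermat.Agent.S15.H946.t1`, helper946),
* leaves T2 (`Fermat.Agent.S15.H379.t2One`, `Fermat.Agent.S15.H379.t2Omega`, helper379),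
* the ORD block (`Fermat.Agent.S19.H15.ordStatement`).
-/

set_option autoImplicit false

namespace Fermat.Agent.S15.H106

/-- **PEU-1 on `J`**, exact skeleton shape, unconditional. -/
theorem peu1J : Fermat.Agent.S15.H975.Peu1JStatement :=
  peu1J_of Fermat.Agent.S19.H15.ordStatement Fermat.Agent.S15.H946.t1
    Fermat.Agent.S15.H379.t2One

/-- **PEU-ω on `J`**, exact skeleton shape, unconditional. -/
theorem peuOmegaJ : Fermat.Agent.S15.H975.PeuOmegaJStatement :=
  peuOmegaJ_of Fermat.Agent.S19.H15.ordStatement Fermat.Agent.S15.H946.t1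
    Fermat.Agent.S15.H379.t2Omega

end Fermat.Agent.S15.H106
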