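import Fermat.Agent.S15.H975.DescSpec
import Fermat.Agent.S15.H379.Peu
import Fermat.Agent.S54.FrobExists

/-!
# S15 / DESC, leaves T2-1 and T2-ω in the EXACT skeleton shape (helper106)

`t2One : H975.T2OneStatement` and `t2Omega : H975.T2OmegaStatement`, the two pure-algebra leaves
of level 3 of `Fermat/Agent/S15/H975/DescSpec.lean`, obtained as adapters of the PEU lemmas of
helper379 (`Fermat/Agent/S15/H379/Peu.lean`, themselves adapters of the S56 FLAT-O library):

* `t2One`: `Q` is generated by `e`, `y`, both killed by `r`, so `Q` is killed by `r`; for `τ` in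
  the inertia group, `τ y - y = m e` is fixed by the whole Galois group, hence `τ y = y` by
  `H379.peu1_of_hopfModel`.
* `t2Omega`: `Q = (ℤ/r) e ⊕ (ℤ/r) y`; `ξ : Q → ℤ/r` is the coordinate along `e`; on the subgroup
  `I₁` of inertia fixing `ζ`, `σ` fixes `e` and moves `y` by a multiple of `e`, and the Kummer
  character of `α` is `σ ↦ ξ (σ y - y)`; conclude with `H379.peuKummer_of_hopfModel` at any place
  over `r` (`S54.exists_valuationSubring_liesOver`).
-/

set_option autoImplicit false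
set_option linter.style.haveILetI false
set_option linter.unusedVariables false

noncomputable section

namespace Fermat.Agent.S15.H106

open Fermat.Agent.S15.H975

/-- A group generated by two elements killed by `r` is killed by `r`. -/
theorem killed_of_gen_h106 {Q : Type} [AddCommGroup Q] (r : ℕ) (e y : Q) (he : r • e = 0)
    (hy : r • y = 0) (hgen : ∀ q : Q, ∃ i j : ℕ, q = i • e + j • y) (x : Q) : r • x = 0 := by
  obtain ⟨i, j, rfl⟩ := hgen x
  rw [smul_add, smul_comm r i e, smul_comm r j y, he, hy, smul_zero, smul_zero, add_zero]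

/-- An additive action commutes with natural multiples. -/
theorem act_nsmul_h106 {Q : Type} [AddCommGroup Q] {act : Gal → Q → Q}
    (hc : Fermat.Agent.S19.IsContAddAction act) (σ : Gal) (n : ℕ) (x : Q) :
    act σ (n • x) = n • act σ x := by
  have h0 : act σ 0 = 0 := by
    have h := hc.act_add σ 0 0
    rw [add_zero] at h
    exact left_eq_add.mp h
  induction n with
  | zero => simp [h0]
  | succ n ih => rw [succ_nsmul, hc.act_add, ih, succ_nsmul]

/-- **T2-1** in the exact skeleton shape. -/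
theorem t2One : T2OneStatement := by
  intro r hr hr2 Q _ _ act hc hH e y he hy hgen hfixe hy1 A hA τ hτ
  haveI : Fact r.Prime := ⟨hr⟩
  have hM : ∀ x : Q, r • x = 0 := killed_of_gen_h106 r e y he hy hgen
  refine Fermat.Agent.S15.H379.peu1_of_hopfModel r hr2 Q act hH hM A hA τ hτ y ?_
  intro τ' _
  obtain ⟨m, hm⟩ := hy1 τ
  have h1 : act τ y - y = m • e := by rw [hm]; abel
  rw [h1, act_nsmul_h106 hc, hfixe]

/-- The coordinate along `e` on `Q = (ℤ/r) e ⊕ (ℤ/r) y`. -/
theorem exists_coord_h106 {Q : Type} [AddCommGroup Q] (r : ℕ) [Fact r.Prime] (e y : Q)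
    (hM : ∀ x : Q, r • x = 0) (he0 : e ≠ 0)
    (hind : ∀ j : ℕ, j • y ∈ AddSubgroup.zmultiples e → r ∣ j) :
    ∃ ξ : Q →+ ZMod r, ξ e = 1 ∧ ξ y = 0 := by
  haveI instMod : Module (ZMod r) Q := AddCommGroup.zmodModule hM
  have hne : e ∉ Submodule.span (ZMod r) ({y} : Set Q) := by
    intro h
    obtain ⟨c, hc⟩ := Submodule.mem_span_singleton.mp h
    have h1 : (c.val : ℕ) • y = e := by
      rw [← hc, ← Nat.cast_smul_eq_nsmul (ZMod r), ZMod.natCast_zmod_val]
    have h2 : r ∣ c.val := hind _ (h1 ▸ AddSubgroup.mem_zmultiples e)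
    have h3 : c.val = 0 := Nat.eq_zero_of_dvd_of_lt h2 (ZMod.val_lt c)
    rw [h3, zero_smul] at h1
    exact he0 h1.symm
  obtain ⟨f, hfe, hfy⟩ := Submodule.exists_le_ker_of_notMem hne
  refine ⟨((f e)⁻¹ • f).toAddMonoidHom, ?_, ?_⟩
  · simp [hfe]
  · have h0 : f y = 0 := hfy (Submodule.mem_span_singleton_self y)
    simp [h0]

/-- **T2-ω** in the exact skeleton shape. -/
theorem t2Omega : T2OmegaStatement := by
  intro r hr Q _ _ act hc hH e y he hy he0 hind hgen ζ hζ hζe a α ha hα hκ
  haveI : Fact r.Prime := ⟨hr⟩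
  haveI : NeZero r := ⟨hr.ne_zero⟩
  have hM : ∀ x : Q, r • x = 0 := killed_of_gen_h106 r e y he hy hgen
  obtain ⟨P, hP⟩ := Fermat.Agent.S54.exists_valuationSubring_liesOver r hr
  obtain ⟨ξ, hξe, hξy⟩ := exists_coord_h106 r e y hM he0 hind
  have hα0 : α ≠ 0 := by
    intro h
    rw [h, zero_pow hr.ne_zero] at hα
    exact ha ((algebraMap ℚ Qb).injective (by rw [← hα, map_zero]))
  -- every `σ` moves `α` by a power of `ζ`
  have hkum : ∀ σ : Gal, ∃ m : ℕ, σ α = ζ ^ m * α := by
    intro σ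
    have h1 : (σ α / α) ^ r = 1 := by
      rw [div_pow, ← map_pow, hα, AlgEquiv.commutes, div_self]
      rw [← hα]
      exact pow_ne_zero _ hα0
    obtain ⟨m, -, hm⟩ := hζ.eq_pow_of_pow_eq_one h1
    exact ⟨m, by rw [hm, div_mul_cancel₀ _ hα0]⟩
  have hfixe : ∀ σ : Gal, σ ζ = ζ → act σ e = e := by
    intro σ h
    have h1 := hζe σ 1 (by rw [pow_one]; exact h)
    rwa [one_smul] at h1
  refine Fermat.Agent.S15.H379.peuKummer_of_hopfModel r Q act hH hM P hP ζ hζ
    (AddSubgroup.zmultiples e) ?_ ?_ ξ y a ha α hα ?_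
  · -- `I₁` fixes `⟨e⟩` pointwise
    intro σ _ hσζ t ht
    obtain ⟨n, rfl⟩ := AddSubgroup.mem_zmultiples_iff.mp ht
    have h1 : act σ (n • e) = n • act σ e :=
      map_zsmul (AddMonoidHom.mk' (act σ) (hc.act_add σ)) n e
    rw [h1, hfixe σ hσζ]
  · -- `I₁` moves every point by a multiple of `e`
    intro σ _ hσζ q
    obtain ⟨i, j, rfl⟩ := hgen q
    obtain ⟨m, hm⟩ := hkum σ
    have hy' := hκ σ m hm
    rw [hc.act_add, act_nsmul_h106 hc, act_nsmul_h106 hc, hfixe σ hσζ, hy']
    have h1 : i • e + j • (y + m • e) - (i • e + j • y) = (j * m) • e := by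
      rw [smul_add, mul_smul]
      abel
    rw [h1]
    exact AddSubgroup.nsmul_mem_zmultiples e (j * m)
  · -- the Kummer character of `α` is `ξ (σ y - y)`
    intro σ _ hσζ
    obtain ⟨m, hm⟩ := hkum σ
    have hy' := hκ σ m hm
    have h1 : act σ y - y = m • e := by rw [hy']; abel
    rw [h1, map_nsmul, hξe, nsmul_one, ZMod.val_natCast, ← pow_eq_pow_mod m hζ.pow_eq_one, hm]

end Fermat.Agent.S15.H106

end
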